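import Mathlib

/-!
# Row LT, tower A2, leaf A2.07 `LiftExC` (helper546) -- part 2: integrals over a fundamental domain

Mathlib only.  `G` a group with a measurable left multiplication, `T` a subgroup whose elements
commute, `Γ ≤ T` a countable subgroup, `μ` a measure on `G` carried by `T` and invariant under the
left translations by `T`, `DT ⊆ T` a measurable strict fundamental domain of `Γ` in `T`
(elementwise form).  Then for every `Γ`-invariant function `f` and every `m₀ ∈ T`:

    ∫_{DT} f (m₀ x) dμ(x) = ∫_{DT} f(x) dμ(x)         (`setIntegral_mul_left_eq_h546`).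

No integrability hypothesis.
-/

set_option autoImplicit false
set_option linter.style.haveILetI false
set_option linter.unusedSectionVars false

open MeasureTheory
open scoped Pointwise

namespace Fermat.Agent.LT.A2.H546

section

variable {G : Type*} [Group G] [MeasurableSpace G] [MeasurableMul G]
variable {E : Type*} [NormedAddCommGroup E] [NormedSpace ℝ E]

/-- The data: see the header. -/
structure FundData_h546 (T Γ : Subgroup G) (μ : Measure G) (DT : Set G) : Prop where
  comm : ∀ a ∈ T, ∀ b ∈ T, a * b = b * a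
  le : Γ ≤ T
  carried : μ {m | m ∉ T} = 0
  inv : ∀ m' ∈ T, ∀ S : Set G, μ ((fun m => m' * m) '' S) = μ S
  dom_sub : ∀ m ∈ DT, m ∈ T
  dom_meas : MeasurableSet DT
  dom_fund : ∀ m ∈ T, ∃! y : G, y ∈ Γ ∧ y * m ∈ DT

variable {T Γ : Subgroup G} {μ : Measure G} {DT : Set G}

theorem measurableConstSMul_h546 (H : Subgroup G) : MeasurableConstSMul H G :=
  ⟨fun c => measurable_const_mul (c : G)⟩

theorem smulInvariant_h546 (h : FundData_h546 T Γ μ DT) (H : Subgroup G) (hH : H ≤ T) :
    SMulInvariantMeasure H G μ := by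
  refine ⟨fun c s _ => ?_⟩
  have e : (fun x : G => c • x) ⁻¹' s = (fun m => ((c⁻¹ : H) : G) * m) '' s := by
    ext x
    constructor
    · intro hx
      refine ⟨(c : G) * x, hx, ?_⟩
      simp
    · rintro ⟨z, hz, rfl⟩
      show c • (((c⁻¹ : H) : G) * z) ∈ s
      rw [Subgroup.smul_def, smul_eq_mul, ← mul_assoc]
      simpa using hz
  rw [e]
  exact h.inv _ (hH (c⁻¹).2) s

theorem isFundamentalDomain_h546 (h : FundData_h546 T Γ μ DT) :
    IsFundamentalDomain Γ DT μ := by
  refine ⟨h.dom_meas.nullMeasurableSet, ?_, ?_⟩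
  · -- a.e. covering
    have : {x : G | ¬ ∃ g : Γ, g • x ∈ DT} ⊆ {m | m ∉ T} := by
      intro x hx hxT
      apply hx
      obtain ⟨y, ⟨hyΓ, hy⟩, -⟩ := h.dom_fund x hxT
      exact ⟨⟨y, hyΓ⟩, hy⟩
    exact measure_mono_null this h.carried
  · -- disjointness
    intro g g' hgg'
    apply Disjoint.aedisjoint
    rw [Set.disjoint_left]
    rintro x ⟨d, hd, rfl⟩ ⟨d', hd', e⟩
    apply hgg'
    -- `x = g d = g' d'`
    have e' : (g' : G) * d' = (g : G) * d := e
    have hxT : (g : G) * d ∈ T := T.mul_mem (h.le g.2) (h.dom_sub d hd)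
    obtain ⟨y, -, huniq⟩ := h.dom_fund _ hxT
    have h1 : ((g⁻¹ : Γ) : G) = y := huniq _ ⟨(g⁻¹).2, by simpa using hd⟩
    have h2 : ((g'⁻¹ : Γ) : G) = y := huniq _ ⟨(g'⁻¹).2, by
      rw [← e']; simpa using hd'⟩
    have : (g⁻¹ : Γ) = g'⁻¹ := Subtype.ext (h1.trans h2.symm)
    exact inv_injective this

theorem smulCommClass_h546 (h : FundData_h546 T Γ μ DT) : SMulCommClass T Γ G := by
  refine ⟨fun a b x => ?_⟩
  show (a : G) * ((b : G) * x) = (b : G) * ((a : G) * x)
  rw [← mul_assoc, ← mul_assoc, h.comm a a.2 b (h.le b.2)]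

/-- **Translation of the variable in an integral over the fundamental domain.** -/
theorem setIntegral_mul_left_eq_h546 [Countable Γ] (h : FundData_h546 T Γ μ DT)
    (f : G → E) (hf : ∀ y ∈ Γ, ∀ x, f (y * x) = f x) (m₀ : G) (hm₀ : m₀ ∈ T) :
    ∫ x in DT, f (m₀ * x) ∂μ = ∫ x in DT, f x ∂μ := by
  haveI := measurableConstSMul_h546 (G := G) Γ
  haveI := measurableConstSMul_h546 (G := G) T
  haveI := smulInvariant_h546 h Γ h.le
  haveI := smulInvariant_h546 h T le_rfl
  haveI := smulCommClass_h546 h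
  have hD := isFundamentalDomain_h546 h
  have hD' : IsFundamentalDomain Γ ((⟨m₀, hm₀⟩ : T) • DT) μ := hD.smul_of_comm (⟨m₀, hm₀⟩ : T)
  have hf' : ∀ (g : Γ) (x : G), f (g • x) = f x := fun g x => hf g g.2 x
  have e1 : ∫ x in (⟨m₀, hm₀⟩ : T) • DT, f x ∂μ = ∫ x in DT, f x ∂μ :=
    hD'.setIntegral_eq hD hf'
  have e2 := (measurePreserving_smul (⟨m₀, hm₀⟩ : T) μ).setIntegral_image_emb
    (measurableEmbedding_const_smul (⟨m₀, hm₀⟩ : T)) f DT
  rw [Set.image_smul] at e2
  rw [← e1, e2]
  rfl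

end

end Fermat.Agent.LT.A2.H546
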