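import Fermat.Agent.LT.A2.H546.Torus
import Fermat.Agent.LT.A2.H546.FundInt

/-!
# Row LT, tower A2, leaf A2.07 `LiftExC` (helper546) -- part 3: existence of the theta lift

OFF-MAIN.  `liftExC_h546 : Fermat.Agent.LT.A2.LiftExC` (the Prop of `LT/A2/Kernel.lean`,
origin/helper950@c68f91cb0, VERBATIM).

The integral `I(g, m_g) = ∫_{DT} Θ(g, m m_g) χT(m m_g) dm` does not depend on the torus component
`m_g` (`ival_indep_h546`: two components differ by `m₀ ∈ T¹(𝔸)`, the integrand is `T¹(K)`-invariant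
by `ThetaInv` and `χT|_{T(K)} = 1`, and `DT`, `m₀ DT` are two fundamental domains), it is
invariant under the rational admissible pairs (`ival_rat_h546`: Hasse's norm theorem gives
`y ∈ T(K)` with `det y = det γ`), and the lift is defined by the choice of any `γ ∈ GL₂(K)`
with `γ g ∈ GL₂(𝔸)⁺`, and `0` if there is none.
-/

set_option autoImplicit false
set_option linter.style.haveILetI false
set_option linter.unusedSectionVars false

open IsDedekindDomain NumberField AutomorphicForm MeasureTheory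
open scoped MatrixGroups

noncomputable section

namespace Fermat.Agent.LT.A2.H546

open Fermat.Agent.LT.H130 Fermat.Agent.LT.H556 Fermat.Agent.LT.A2

variable {K : Type} [Field K] [NumberField K]

/-- `T¹(𝔸_K)` as a subgroup of `GL₂(𝔸_K)`. -/
def tor1SG_h546 (t n : K) : Subgroup (A0.G K) where
  carrier := {m | InTorus1 t n m}
  mul_mem' := inTorus1_mul_h546
  one_mem' := inTorus1_one_h546 t n
  inv_mem' := inTorus1_inv_h546

/-- `T¹(K)` as a subgroup of `GL₂(𝔸_K)`. -/
def tor1RatSG_h546 (t n : K) : Subgroup (A0.G K) where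
  carrier := {y | InTorusRat t n y ∧ InTorus1 t n y}
  mul_mem' := fun h h' => ⟨inTorusRat_mul_h546 h.1 h'.1, inTorus1_mul_h546 h.2 h'.2⟩
  one_mem' := ⟨inTorusRat_one_h546 t n, inTorus1_one_h546 t n⟩
  inv_mem' := fun h => ⟨inTorusRat_inv_h546 h.1 h.2.2, inTorus1_inv_h546 h.2⟩

theorem mem_tor1SG_h546 (t n : K) (m : A0.G K) : m ∈ tor1SG_h546 t n ↔ InTorus1 t n m := Iff.rfl

theorem mem_tor1RatSG_h546 (t n : K) (m : A0.G K) :
    m ∈ tor1RatSG_h546 t n ↔ InTorusRat t n m ∧ InTorus1 t n m := Iff.rfl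

theorem countable_numberField_h546 (K : Type) [Field K] [NumberField K] : Countable K := by
  have h : Set.Countable {x : K | IsAlgebraic ℚ x} := Algebraic.countable ℚ K
  have e : {x : K | IsAlgebraic ℚ x} = Set.univ := by
    ext x
    exact ⟨fun _ => Set.mem_univ x, fun _ => Algebra.IsAlgebraic.isAlgebraic x⟩
  rw [e] at h
  exact Set.countable_univ_iff.mp h

theorem countable_tor1RatSG_h546 (t n : K) : Countable (tor1RatSG_h546 t n) := by
  classical
  have hK := countable_numberField_h546 K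
  let F : K × K → A0.G K := fun p =>
    if h : ∃ y : A0.G K, (y : Matrix (Fin 2) (Fin 2) (A0.Adl K))
        = torMat (algebraMap K (A0.Adl K) t) (algebraMap K (A0.Adl K) n)
            (algebraMap K (A0.Adl K) p.1) (algebraMap K (A0.Adl K) p.2)
    then h.choose else 1
  have hsub : (tor1RatSG_h546 t n : Set (A0.G K)) ⊆ Set.range F := by
    intro y hy
    obtain ⟨a, b, e⟩ := hy.1
    have h : ∃ y : A0.G K, (y : Matrix (Fin 2) (Fin 2) (A0.Adl K))
        = torMat (algebraMap K (A0.Adl K) t) (algebraMap K (A0.Adl K) n)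
            (algebraMap K (A0.Adl K) (a, b).1) (algebraMap K (A0.Adl K) (a, b).2) := ⟨y, e⟩
    refine ⟨(a, b), ?_⟩
    have hF : F (a, b) = h.choose := dif_pos h
    rw [hF]
    apply Units.ext
    rw [h.choose_spec, e]
  have hc : (tor1RatSG_h546 t n : Set (A0.G K)).Countable :=
    (Set.countable_range F).mono hsub
  exact hc.to_subtype

/-- The fundamental-domain data of good theta data. -/
theorem fundData_h546 (D : KData K) (hM : D.IsMeasured) :
    @FundData_h546 (A0.G K) _ (borel (A0.G K)) (tor1SG_h546 D.t D.n) (tor1RatSG_h546 D.t D.n)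
      D.μT D.DT := by
  letI : MeasurableSpace (A0.G K) := borel (A0.G K)
  refine ⟨?_, ?_, hM.carried, hM.inv, hM.dom_sub, hM.dom_meas, ?_⟩
  · intro a ha b hb
    exact inTorus_comm_h546 ha.1 hb.1
  · intro y hy
    exact hy.2
  · intro m hm
    obtain ⟨y, ⟨hy1, hy2, hy3⟩, huniq⟩ := hM.dom_fund m hm
    exact ⟨y, ⟨⟨hy1, hy2⟩, hy3⟩, fun z hz => huniq z ⟨hz.1.1, hz.1.2, hz.2⟩⟩

/-- The integral `I(g, m_g)`. -/
def ival_h546 (D : KData K) (g mg : A0.G K) : ℂ :=
  D.intT D.DT fun m => D.theta g (m * mg) * D.χT (m * mg)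

theorem ival_congr_h546 (D : KData K) (hM : D.IsMeasured) (f f' : A0.G K → ℂ)
    (h : ∀ m ∈ D.DT, f m = f' m) : D.intT D.DT f = D.intT D.DT f' := by
  letI : MeasurableSpace (A0.G K) := borel (A0.G K)
  exact setIntegral_congr_fun hM.dom_meas h

/-- Translation of the variable by `m₀ ∈ T¹(𝔸)` in the integral of a `T¹(K)`-invariant
function. -/
theorem intT_translate_h546 (D : KData K) (hM : D.IsMeasured) (f : A0.G K → ℂ)
    (hf : ∀ y : A0.G K, InTorusRat D.t D.n y → InTorus1 D.t D.n y → ∀ x, f (y * x) = f x)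
    (m₀ : A0.G K) (hm₀ : InTorus1 D.t D.n m₀) :
    D.intT D.DT (fun x => f (m₀ * x)) = D.intT D.DT f := by
  letI : MeasurableSpace (A0.G K) := borel (A0.G K)
  haveI : BorelSpace (A0.G K) := ⟨rfl⟩
  haveI := countable_tor1RatSG_h546 D.t D.n
  exact setIntegral_mul_left_eq_h546 (fundData_h546 D hM) f (fun y hy x => hf y hy.1 hy.2 x)
    m₀ hm₀

/-- **Independence of the torus component.** -/
theorem ival_indep_h546 (D : KData K) (hG : D.Good) (hΘ : D.ThetaInv) {g mg mg' : A0.G K}
    (h : Adm D.t D.n g mg) (h' : Adm D.t D.n g mg') : ival_h546 D g mg' = ival_h546 D g mg := by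
  classical
  set m₀ := mg' * mg⁻¹ with hm₀
  have hm₀T : InTorus1 D.t D.n m₀ := inTorus1_of_adm_h546 h h'
  -- the invariant function
  set hfun : A0.G K → ℂ := fun m => D.theta g (m * mg) * D.χT (m * mg) with hhfun
  set f : A0.G K → ℂ := fun m => if InTorus1 D.t D.n m then hfun m else 0 with hf
  have hinv : ∀ y : A0.G K, InTorusRat D.t D.n y → InTorus1 D.t D.n y → ∀ x,
      f (y * x) = f x := by
    intro y hy hy1 x
    have hiff : InTorus1 D.t D.n (y * x) ↔ InTorus1 D.t D.n x := by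
      constructor
      · intro hyx
        have := inTorus1_mul_h546 (inTorus1_inv_h546 hy1) hyx
        rwa [inv_mul_cancel_left] at this
      · exact fun hx => inTorus1_mul_h546 hy1 hx
    by_cases hx : InTorus1 D.t D.n x
    · have hyx := hiff.mpr hx
      simp only [hf, hx, hyx, if_true, hhfun]
      have hadm : Adm D.t D.n g (x * mg) := adm_torus1_mul_h546 h hx
      have e1 : D.theta g (y * x * mg) = D.theta g (x * mg) := by
        have := hΘ 1 y g (x * mg) hy (by
          show Matrix.GeneralLinearGroup.det (ratG (1 : GL (Fin 2) K)) = _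
          unfold ratG
          rw [map_one, map_one, hy1.2]) hadm
        unfold ratG at this
        rw [map_one, one_mul, ← mul_assoc] at this
        exact this
      have e2 : D.χT (y * x * mg) = D.χT (x * mg) := by
        rw [mul_assoc, hG.torus.mul y (x * mg) (inTorus_of_rat_h546 hy) hadm.1,
          hG.torus.rat y hy, one_mul]
      rw [e1, e2]
    · have hyx : ¬ InTorus1 D.t D.n (y * x) := fun hh => hx (hiff.mp hh)
      simp only [hf, hx, hyx, if_false]
  have key := intT_translate_h546 D hG.measured f hinv m₀ hm₀T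
  have e1 : ival_h546 D g mg' = D.intT D.DT (fun x => f (m₀ * x)) := by
    apply ival_congr_h546 D hG.measured
    intro m hm
    have hmT : InTorus1 D.t D.n m := hG.measured.dom_sub m hm
    have hmm : InTorus1 D.t D.n (m₀ * m) := inTorus1_mul_h546 hm₀T hmT
    have e : m₀ * m * mg = m * mg' := by
      rw [inTorus_comm_h546 hm₀T.1 hmT.1, hm₀, mul_assoc, mul_assoc, inv_mul_cancel, mul_one]
    simp only [hf, hmm, if_true, hhfun, e]
  have e2 : ival_h546 D g mg = D.intT D.DT f := by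
    apply ival_congr_h546 D hG.measured
    intro m hm
    have hmT : InTorus1 D.t D.n m := hG.measured.dom_sub m hm
    simp only [hf, hmT, if_true, hhfun]
  rw [e1, e2, key]

theorem val_det_ratG_h546 (γ : GL (Fin 2) K) :
    ((Matrix.GeneralLinearGroup.det (ratG γ) : (A0.Adl K)ˣ) : A0.Adl K)
      = algebraMap K (A0.Adl K) ((γ : Matrix (Fin 2) (Fin 2) K).det) := by
  unfold ratG
  rw [Matrix.GeneralLinearGroup.map_det, Units.coe_map, MonoidHom.coe_coe,
    Matrix.GeneralLinearGroup.val_det_apply]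

theorem ratG_mul_h546 (γ γ' : GL (Fin 2) K) :
    (ratG (γ * γ') : A0.G K) = ratG γ * ratG γ' := by
  unfold ratG
  rw [map_mul]

theorem ratG_one_h546 : (ratG (1 : GL (Fin 2) K) : A0.G K) = 1 := by
  unfold ratG
  rw [map_one]

/-- **Invariance under the rational admissible pairs.** -/
theorem ival_rat_h546 (hH : HasseNormC) (D : KData K) (hG : D.Good) (hΘ : D.ThetaInv)
    {g m₁ m₂ : A0.G K} {γ₁ γ₂ : GL (Fin 2) K} (h₁ : Adm D.t D.n (ratG γ₁ * g) m₁)
    (h₂ : Adm D.t D.n (ratG γ₂ * g) m₂) :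
    ival_h546 D (ratG γ₁ * g) m₁ = ival_h546 D (ratG γ₂ * g) m₂ := by
  obtain ⟨δ, hδ⟩ : ∃ δ : GL (Fin 2) K, δ = γ₂ * γ₁⁻¹ := ⟨_, rfl⟩
  obtain ⟨g₁, hg₁⟩ : ∃ g₁ : A0.G K, g₁ = ratG γ₁ * g := ⟨_, rfl⟩
  rw [← hg₁] at h₁ ⊢
  have hg : (ratG δ : A0.G K) * g₁ = ratG γ₂ * g := by
    rw [hδ, hg₁, ratG_mul_h546, mul_assoc, ← mul_assoc (ratG γ₁⁻¹), ← ratG_mul_h546,
      inv_mul_cancel, ratG_one_h546, one_mul]
  -- `det δ = det (m₂ m₁⁻¹)`
  have hdet : Matrix.GeneralLinearGroup.det (ratG δ : A0.G K)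
      = Matrix.GeneralLinearGroup.det (m₂ * m₁⁻¹) := by
    have : Matrix.GeneralLinearGroup.det ((ratG δ : A0.G K) * g₁)
        = Matrix.GeneralLinearGroup.det m₂ := by rw [hg]; exact h₂.2
    rw [map_mul, h₁.2] at this
    rw [map_mul, map_inv, ← this, mul_inv_cancel_right]
  have hT : InTorus D.t D.n (m₂ * m₁⁻¹) := inTorus_mul_h546 h₂.1 (inTorus_inv_h546 h₁.1)
  obtain ⟨y, hy, hydet⟩ := hH K D.t D.n hG.torus.irred ((δ : Matrix (Fin 2) (Fin 2) K).det)
    (m₂ * m₁⁻¹) hT (by rw [← hdet, val_det_ratG_h546])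
  have hydet' : Matrix.GeneralLinearGroup.det (ratG δ : A0.G K)
      = Matrix.GeneralLinearGroup.det y := by
    apply Units.ext
    rw [hydet, val_det_ratG_h546]
  have hadm : Adm D.t D.n ((ratG δ : A0.G K) * g₁) (y * m₁) :=
    ⟨inTorus_mul_h546 (inTorus_of_rat_h546 hy) h₁.1, by
      rw [map_mul, map_mul, hydet', h₁.2]⟩
  -- step 1: `I(δ g₁, y m₁) = I(g₁, m₁)`
  have step1 : ival_h546 D ((ratG δ : A0.G K) * g₁) (y * m₁) = ival_h546 D g₁ m₁ := by
    apply ival_congr_h546 D hG.measured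
    intro m hm
    have hmT : InTorus1 D.t D.n m := hG.measured.dom_sub m hm
    have hadm1 : Adm D.t D.n g₁ (m * m₁) := adm_torus1_mul_h546 h₁ hmT
    have e : m * (y * m₁) = y * (m * m₁) := by
      rw [← mul_assoc, inTorus_comm_h546 hmT.1 (inTorus_of_rat_h546 hy), mul_assoc]
    simp only [e]
    rw [hΘ δ y g₁ (m * m₁) hy hydet' hadm1,
      hG.torus.mul y (m * m₁) (inTorus_of_rat_h546 hy) hadm1.1, hG.torus.rat y hy, one_mul]
  -- step 2: independence of the torus component
  have h₂' : Adm D.t D.n ((ratG δ : A0.G K) * g₁) m₂ := by rw [hg]; exact h₂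
  have step2 := ival_indep_h546 D hG hΘ hadm h₂'
  rw [← step1, ← step2, hg]

/-- **LIFT-EX**: the theta lift exists. -/
theorem liftExC_h546 : LiftExC := by
  classical
  intro hH K _ _ D hG hΘ
  -- the definition
  let P : A0.G K → Prop := fun g => ∃ γ : GL (Fin 2) K, ∃ m : A0.G K, Adm D.t D.n (ratG γ * g) m
  let φ : A0.G K → ℂ := fun g =>
    if h : P g then ival_h546 D (ratG h.choose * g) h.choose_spec.choose else 0
  have hφ : ∀ (g : A0.G K) (γ : GL (Fin 2) K) (m : A0.G K), Adm D.t D.n (ratG γ * g) m →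
      φ g = ival_h546 D (ratG γ * g) m := by
    intro g γ m hadm
    have hP : P g := ⟨γ, m, hadm⟩
    show (if h : P g then ival_h546 D (ratG h.choose * g) h.choose_spec.choose else 0) = _
    rw [dif_pos hP]
    exact ival_rat_h546 hH D hG hΘ hP.choose_spec.choose_spec hadm
  have hφ0 : ∀ g : A0.G K, ¬ P g → φ g = 0 := by
    intro g hP
    show (if h : P g then ival_h546 D (ratG h.choose * g) h.choose_spec.choose else 0) = _
    rw [dif_neg hP]
  refine ⟨φ, ⟨?_, ?_, ?_⟩⟩
  · -- formula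
    intro g mg hadm
    have hadm' : Adm D.t D.n (ratG (1 : GL (Fin 2) K) * g) mg := by
      rw [ratG_one_h546, one_mul]; exact hadm
    have := hφ g 1 mg hadm'
    rw [ratG_one_h546, one_mul] at this
    exact this
  · -- left invariance
    intro γ g
    by_cases hP : P g
    · obtain ⟨γ', m, hadm⟩ := hP
      have e : (ratG (γ' * γ⁻¹) : A0.G K) * (ratG γ * g) = ratG γ' * g := by
        rw [← mul_assoc, ← ratG_mul_h546, inv_mul_cancel_right]
      have hadm' : Adm D.t D.n ((ratG (γ' * γ⁻¹) : A0.G K) * (ratG γ * g)) m := by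
        rw [e]; exact hadm
      rw [hφ (ratG γ * g) (γ' * γ⁻¹) m hadm', hφ g γ' m hadm, e]
    · have hP' : ¬ P (ratG γ * g) := by
        rintro ⟨γ', m, hadm⟩
        apply hP
        refine ⟨γ' * γ, m, ?_⟩
        rw [ratG_mul_h546, mul_assoc]
        exact hadm
      rw [hφ0 _ hP, hφ0 _ hP']
  · -- vanishing off `GL₂(K) GL₂(𝔸)⁺`
    intro g hg
    apply hφ0
    rintro ⟨γ, m, hadm⟩
    exact hg γ ⟨m, hadm⟩

end Fermat.Agent.LT.A2.H546

end
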