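import Fermat.Agent.LT.A2.TopTC
import Fermat.Agent.LT.A2.H546.LiftEx

/-!
# Row LT, tower A2, leaf A2.07b `LiftExAtC` (v2; helper546), OFF-MAIN

`LiftExC` with the hypothesis `HasseNormAt K D.t D.n` (Hasse's norm theorem for the ONE torus of
the data) instead of `HasseNormC` (Spec v2 of helper950, `LT/A2/TopTC.lean`).  Same proof as
`liftExC_h546` (`LiftEx.lean`): Hasse is only used at `(K, D.t, D.n)`.
-/

set_option autoImplicit false

open IsDedekindDomain NumberField AutomorphicForm MeasureTheory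
open scoped MatrixGroups

noncomputable section

namespace Fermat.Agent.LT.A2.H546

open Fermat.Agent.LT.H130 Fermat.Agent.LT.H556 Fermat.Agent.LT.A2

variable {K : Type} [Field K] [NumberField K]

/-- **Invariance under the rational admissible pairs.** -/
theorem ival_rat_at_h546 (D : KData K) (hH : HasseNormAt K D.t D.n) (hG : D.Good)
    (hΘ : D.ThetaInv)
    {g m₁ m₂ : A0.G K} {γ₁ γ₂ : GL (Fin 2) K} (h₁ : Adm D.t D.n (ratG γ₁ * g) m₁)
    (h₂ : Adm D.t D.n (ratG γ₂ * g) m₂) :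
    ival_h546 D (ratG γ₁ * g) m₁ = ival_h546 D (ratG γ₂ * g) m₂ := by
  obtain ⟨δ, hδ⟩ : ∃ δ : GL (Fin 2) K, δ = γ₂ * γ₁⁻¹ := ⟨_, rfl⟩
  obtain ⟨g₁, hg₁⟩ : ∃ g₁ : A0.G K, g₁ = ratG γ₁ * g := ⟨_, rfl⟩
  rw [← hg₁] at h₁ ⊢
  have hg : (ratG δ : A0.G K) * g₁ = ratG γ₂ * g := by
    rw [hδ, hg₁, ratG_mul_h546, mul_assoc, ← mul_assoc (ratG γ₁⁻¹), ← ratG_mul_h546,
      inv_mul_cancel, ratG_one_h546, one_mul]
  -- `det δ = det (m₂ m₁⁻¹)`
  have hdet : Matrix.GeneralLinearGroup.det (ratG δ : A0.G K)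
      = Matrix.GeneralLinearGroup.det (m₂ * m₁⁻¹) := by
    have : Matrix.GeneralLinearGroup.det ((ratG δ : A0.G K) * g₁)
        = Matrix.GeneralLinearGroup.det m₂ := by rw [hg]; exact h₂.2
    rw [map_mul, h₁.2] at this
    rw [map_mul, map_inv, ← this, mul_inv_cancel_right]
  have hT : InTorus D.t D.n (m₂ * m₁⁻¹) := inTorus_mul_h546 h₂.1 (inTorus_inv_h546 h₁.1)
  obtain ⟨y, hy, hydet⟩ := hH ((δ : Matrix (Fin 2) (Fin 2) K).det)
    (m₂ * m₁⁻¹) hT (by rw [← hdet, val_det_ratG_h546])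
  have hydet' : Matrix.GeneralLinearGroup.det (ratG δ : A0.G K)
      = Matrix.GeneralLinearGroup.det y := by
    apply Units.ext
    rw [hydet, val_det_ratG_h546]
  have hadm : Adm D.t D.n ((ratG δ : A0.G K) * g₁) (y * m₁) :=
    ⟨inTorus_mul_h546 (inTorus_of_rat_h546 hy) h₁.1, by
      rw [map_mul, map_mul, hydet', h₁.2]⟩
  -- step 1: `I(δ g₁, y m₁) = I(g₁, m₁)`
  have step1 : ival_h546 D ((ratG δ : A0.G K) * g₁) (y * m₁) = ival_h546 D g₁ m₁ := by
    apply ival_congr_h546 D hG.measured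
    intro m hm
    have hmT : InTorus1 D.t D.n m := hG.measured.dom_sub m hm
    have hadm1 : Adm D.t D.n g₁ (m * m₁) := adm_torus1_mul_h546 h₁ hmT
    have e : m * (y * m₁) = y * (m * m₁) := by
      rw [← mul_assoc, inTorus_comm_h546 hmT.1 (inTorus_of_rat_h546 hy), mul_assoc]
    simp only [e]
    rw [hΘ δ y g₁ (m * m₁) hy hydet' hadm1,
      hG.torus.mul y (m * m₁) (inTorus_of_rat_h546 hy) hadm1.1, hG.torus.rat y hy, one_mul]
  -- step 2: independence of the torus component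
  have h₂' : Adm D.t D.n ((ratG δ : A0.G K) * g₁) m₂ := by rw [hg]; exact h₂
  have step2 := ival_indep_h546 D hG hΘ hadm h₂'
  rw [← step1, ← step2, hg]

/-- **LIFT-EX, local form of the hypothesis (v2)**: the theta lift exists. -/
theorem liftExAtC_h546 : LiftExAtC := by
  classical
  intro K _ _ D hH hG hΘ
  -- the definition
  let P : A0.G K → Prop := fun g => ∃ γ : GL (Fin 2) K, ∃ m : A0.G K, Adm D.t D.n (ratG γ * g) m
  let φ : A0.G K → ℂ := fun g =>
    if h : P g then ival_h546 D (ratG h.choose * g) h.choose_spec.choose else 0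
  have hφ : ∀ (g : A0.G K) (γ : GL (Fin 2) K) (m : A0.G K), Adm D.t D.n (ratG γ * g) m →
      φ g = ival_h546 D (ratG γ * g) m := by
    intro g γ m hadm
    have hP : P g := ⟨γ, m, hadm⟩
    show (if h : P g then ival_h546 D (ratG h.choose * g) h.choose_spec.choose else 0) = _
    rw [dif_pos hP]
    exact ival_rat_at_h546 D hH hG hΘ hP.choose_spec.choose_spec hadm
  have hφ0 : ∀ g : A0.G K, ¬ P g → φ g = 0 := by
    intro g hP
    show (if h : P g then ival_h546 D (ratG h.choose * g) h.choose_spec.choose else 0) = _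
    rw [dif_neg hP]
  refine ⟨φ, ⟨?_, ?_, ?_⟩⟩
  · -- formula
    intro g mg hadm
    have hadm' : Adm D.t D.n (ratG (1 : GL (Fin 2) K) * g) mg := by
      rw [ratG_one_h546, one_mul]; exact hadm
    have := hφ g 1 mg hadm'
    rw [ratG_one_h546, one_mul] at this
    exact this
  · -- left invariance
    intro γ g
    by_cases hP : P g
    · obtain ⟨γ', m, hadm⟩ := hP
      have e : (ratG (γ' * γ⁻¹) : A0.G K) * (ratG γ * g) = ratG γ' * g := by
        rw [← mul_assoc, ← ratG_mul_h546, inv_mul_cancel_right]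
      have hadm' : Adm D.t D.n ((ratG (γ' * γ⁻¹) : A0.G K) * (ratG γ * g)) m := by
        rw [e]; exact hadm
      rw [hφ (ratG γ * g) (γ' * γ⁻¹) m hadm', hφ g γ' m hadm, e]
    · have hP' : ¬ P (ratG γ * g) := by
        rintro ⟨γ', m, hadm⟩
        apply hP
        refine ⟨γ' * γ, m, ?_⟩
        rw [ratG_mul_h546, mul_assoc]
        exact hadm
      rw [hφ0 _ hP, hφ0 _ hP']
  · -- vanishing off `GL₂(K) GL₂(𝔸)⁺`
    intro g hg
    apply hφ0
    rintro ⟨γ, m, hadm⟩
    exact hg γ ⟨m, hadm⟩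


/-- The v1 leaf again, through the v2 leaf (`liftExC_of_at` of helper950). -/
theorem liftExC_via_at_h546 : LiftExC := liftExC_of_at liftExAtC_h546

end Fermat.Agent.LT.A2.H546

end
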