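import Fermat.Agent.LT.A2.Kernel

/-!
# Row LT, tower A2, leaf A2.07 `LiftExC` (helper546) -- part 1: the torus is a commutative group

OFF-MAIN.  Algebra of the matrices `torMat t n a b = [[a, -n b], [b, a + t b]]` and of the
predicates `InTorus`, `InTorusRat`, `InTorus1`, `Adm`, `InGPlus` of `LT/A2/Kernel.lean`.
-/

set_option autoImplicit false

open IsDedekindDomain NumberField AutomorphicForm MeasureTheory
open scoped MatrixGroups

noncomputable section

namespace Fermat.Agent.LT.A2.H546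

open Fermat.Agent.LT.H130 Fermat.Agent.LT.H556 Fermat.Agent.LT.A2

section TorMat

variable {R : Type*} [CommRing R]

theorem torMat_mul_h546 (t n a b a' b' : R) :
    torMat t n a b * torMat t n a' b'
      = torMat t n (a * a' - n * (b * b')) (a * b' + b * a' + t * (b * b')) := by
  unfold torMat
  ext i j
  fin_cases i <;> fin_cases j <;> simp [Matrix.mul_apply, Fin.sum_univ_two] <;> ring

theorem torMat_comm_h546 (t n a b a' b' : R) :
    torMat t n a b * torMat t n a' b' = torMat t n a' b' * torMat t n a b := by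
  rw [torMat_mul_h546, torMat_mul_h546]
  congr 1 <;> ring

theorem torMat_one_h546 (t n : R) : torMat t n 1 0 = 1 := by
  unfold torMat
  ext i j
  fin_cases i <;> fin_cases j <;> simp

theorem torMat_det_h546 (t n a b : R) : (torMat t n a b).det = a * (a + t * b) + n * b * b := by
  unfold torMat
  rw [Matrix.det_fin_two_of]
  ring

/-- The inverse of a torus matrix (given an inverse `c` of its determinant). -/
theorem torMat_inv_mul_h546 (t n a b c : R) (hc : c * (a * (a + t * b) + n * b * b) = 1) :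
    torMat t n (c * (a + t * b)) (-(c * b)) * torMat t n a b = 1 := by
  rw [torMat_mul_h546, ← torMat_one_h546 t n]
  congr 1
  · linear_combination hc
  · ring

end TorMat

section Torus

variable {K : Type} [Field K] [NumberField K]

theorem inTorus_one_h546 (t n : K) : InTorus t n (1 : A0.G K) :=
  ⟨1, 0, by rw [torMat_one_h546]; rfl⟩

theorem inTorus_mul_h546 {t n : K} {m m' : A0.G K} (h : InTorus t n m) (h' : InTorus t n m') :
    InTorus t n (m * m') := by
  obtain ⟨a, b, e⟩ := h
  obtain ⟨a', b', e'⟩ := h'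
  refine ⟨a * a' - algebraMap K (A0.Adl K) n * (b * b'),
    a * b' + b * a' + algebraMap K (A0.Adl K) t * (b * b'), ?_⟩
  rw [Units.val_mul, e, e', torMat_mul_h546]

theorem inTorus_comm_h546 {t n : K} {m m' : A0.G K} (h : InTorus t n m) (h' : InTorus t n m') :
    m * m' = m' * m := by
  obtain ⟨a, b, e⟩ := h
  obtain ⟨a', b', e'⟩ := h'
  apply Units.ext
  rw [Units.val_mul, Units.val_mul, e, e', torMat_comm_h546]

theorem inTorus_inv_h546 {t n : K} {m : A0.G K} (h : InTorus t n m) : InTorus t n m⁻¹ := by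
  obtain ⟨a, b, e⟩ := h
  set c : A0.Adl K := (((Matrix.GeneralLinearGroup.det m)⁻¹ : (A0.Adl K)ˣ) : A0.Adl K) with hc
  have hdet : ((Matrix.GeneralLinearGroup.det m : (A0.Adl K)ˣ) : A0.Adl K)
      = a * (a + algebraMap K (A0.Adl K) t * b) + algebraMap K (A0.Adl K) n * b * b := by
    rw [Matrix.GeneralLinearGroup.val_det_apply, e, torMat_det_h546]
  have hc1 : c * (a * (a + algebraMap K (A0.Adl K) t * b) + algebraMap K (A0.Adl K) n * b * b)
      = 1 := by
    rw [← hdet, hc]
    exact Units.inv_mul _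
  refine ⟨c * (a + algebraMap K (A0.Adl K) t * b), -(c * b), ?_⟩
  have key := torMat_inv_mul_h546 (algebraMap K (A0.Adl K) t) (algebraMap K (A0.Adl K) n) a b c hc1
  rw [← e] at key
  -- `X * m = 1` gives `m⁻¹ = X`
  have : ((m⁻¹ : A0.G K) : Matrix (Fin 2) (Fin 2) (A0.Adl K))
      = torMat (algebraMap K (A0.Adl K) t) (algebraMap K (A0.Adl K) n)
          (c * (a + algebraMap K (A0.Adl K) t * b)) (-(c * b)) := by
    have h1 : ((m⁻¹ : A0.G K) : Matrix (Fin 2) (Fin 2) (A0.Adl K))
        = (torMat (algebraMap K (A0.Adl K) t) (algebraMap K (A0.Adl K) n)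
          (c * (a + algebraMap K (A0.Adl K) t * b)) (-(c * b)) * (m : Matrix _ _ _))
            * ((m⁻¹ : A0.G K) : Matrix (Fin 2) (Fin 2) (A0.Adl K)) := by
      rw [key, one_mul]
    rw [h1, mul_assoc, ← Units.val_mul, mul_inv_cancel, Units.val_one, mul_one]
  exact this

theorem inTorus_of_rat_h546 {t n : K} {y : A0.G K} (h : InTorusRat t n y) : InTorus t n y := by
  obtain ⟨a, b, e⟩ := h
  exact ⟨_, _, e⟩

theorem inTorusRat_one_h546 (t n : K) : InTorusRat t n (1 : A0.G K) :=
  ⟨1, 0, by rw [map_one, map_zero, torMat_one_h546]; rfl⟩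

theorem inTorusRat_mul_h546 {t n : K} {m m' : A0.G K} (h : InTorusRat t n m)
    (h' : InTorusRat t n m') : InTorusRat t n (m * m') := by
  obtain ⟨a, b, e⟩ := h
  obtain ⟨a', b', e'⟩ := h'
  refine ⟨a * a' - n * (b * b'), a * b' + b * a' + t * (b * b'), ?_⟩
  rw [Units.val_mul, e, e', torMat_mul_h546]
  simp only [map_sub, map_mul, map_add]

/-- The inverse of a rational torus element of determinant one is rational. -/
theorem inTorusRat_inv_h546 {t n : K} {m : A0.G K} (h : InTorusRat t n m)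
    (hd : Matrix.GeneralLinearGroup.det m = 1) : InTorusRat t n m⁻¹ := by
  obtain ⟨a, b, e⟩ := h
  have hdet : (1 : A0.Adl K)
      = algebraMap K (A0.Adl K) a * (algebraMap K (A0.Adl K) a
          + algebraMap K (A0.Adl K) t * algebraMap K (A0.Adl K) b)
        + algebraMap K (A0.Adl K) n * algebraMap K (A0.Adl K) b * algebraMap K (A0.Adl K) b := by
    rw [← torMat_det_h546, ← e, ← Matrix.GeneralLinearGroup.val_det_apply, hd, Units.val_one]
  have key := torMat_inv_mul_h546 (algebraMap K (A0.Adl K) t) (algebraMap K (A0.Adl K) n)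
    (algebraMap K (A0.Adl K) a) (algebraMap K (A0.Adl K) b) 1 (by rw [one_mul]; exact hdet.symm)
  rw [← e] at key
  refine ⟨a + t * b, -b, ?_⟩
  have h1 : ((m⁻¹ : A0.G K) : Matrix (Fin 2) (Fin 2) (A0.Adl K))
      = (torMat (algebraMap K (A0.Adl K) t) (algebraMap K (A0.Adl K) n)
        (1 * (algebraMap K (A0.Adl K) a + algebraMap K (A0.Adl K) t * algebraMap K (A0.Adl K) b))
        (-(1 * algebraMap K (A0.Adl K) b)) * (m : Matrix _ _ _))
          * ((m⁻¹ : A0.G K) : Matrix (Fin 2) (Fin 2) (A0.Adl K)) := by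
    rw [key, one_mul]
  rw [h1, mul_assoc, ← Units.val_mul, mul_inv_cancel, Units.val_one, mul_one]
  simp only [one_mul, map_add, map_mul, map_neg]

theorem inTorus1_one_h546 (t n : K) : InTorus1 t n (1 : A0.G K) :=
  ⟨inTorus_one_h546 t n, map_one _⟩

theorem inTorus1_mul_h546 {t n : K} {m m' : A0.G K} (h : InTorus1 t n m)
    (h' : InTorus1 t n m') : InTorus1 t n (m * m') :=
  ⟨inTorus_mul_h546 h.1 h'.1, by rw [map_mul, h.2, h'.2, one_mul]⟩

theorem inTorus1_inv_h546 {t n : K} {m : A0.G K} (h : InTorus1 t n m) : InTorus1 t n m⁻¹ :=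
  ⟨inTorus_inv_h546 h.1, by rw [map_inv, h.2, inv_one]⟩

/-! ## Admissible pairs -/

theorem adm_mul_h546 {t n : K} {g m g' m' : A0.G K} (h : Adm t n g m) (h' : Adm t n g' m') :
    Adm t n (g * g') (m * m') :=
  ⟨inTorus_mul_h546 h.1 h'.1, by rw [map_mul, map_mul, h.2, h'.2]⟩

theorem adm_inv_h546 {t n : K} {g m : A0.G K} (h : Adm t n g m) : Adm t n g⁻¹ m⁻¹ :=
  ⟨inTorus_inv_h546 h.1, by rw [map_inv, map_inv, h.2]⟩

theorem adm_one_h546 (t n : K) : Adm t n (1 : A0.G K) 1 :=
  ⟨inTorus_one_h546 t n, rfl⟩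

/-- Multiplying the torus component of an admissible pair by an element of `T¹`. -/
theorem adm_torus1_mul_h546 {t n : K} {g m m' : A0.G K} (h : Adm t n g m)
    (h' : InTorus1 t n m') : Adm t n g (m' * m) :=
  ⟨inTorus_mul_h546 h'.1 h.1, by rw [map_mul, h'.2, one_mul, h.2]⟩

/-- Two torus components of the same `g` differ by an element of `T¹`. -/
theorem inTorus1_of_adm_h546 {t n : K} {g m m' : A0.G K} (h : Adm t n g m) (h' : Adm t n g m') :
    InTorus1 t n (m' * m⁻¹) :=
  ⟨inTorus_mul_h546 h'.1 (inTorus_inv_h546 h.1), by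
    rw [map_mul, map_inv, ← h.2, ← h'.2, mul_inv_cancel]⟩

theorem inGPlus_mul_h546 {t n : K} {g g' : A0.G K} (h : InGPlus t n g) (h' : InGPlus t n g') :
    InGPlus t n (g * g') := by
  obtain ⟨m, hm⟩ := h
  obtain ⟨m', hm'⟩ := h'
  exact ⟨m * m', adm_mul_h546 hm hm'⟩

theorem inGPlus_inv_h546 {t n : K} {g : A0.G K} (h : InGPlus t n g) : InGPlus t n g⁻¹ := by
  obtain ⟨m, hm⟩ := h
  exact ⟨m⁻¹, adm_inv_h546 hm⟩

end Torus

end Fermat.Agent.LT.A2.H546

end
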